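/-
S41 (helper68): the arithmetic of the "fibre collapse", report #1264, step (3).

* `exists_exponent` : for `Q > 1`, `Q ≡ 1 mod N`, `l` an odd prime not dividing `N Q` there is
  `s₀ ≥ 1` such that for every prime `c₁ ∤ N Q l`, `c₁ ≢ 1 mod l`, and every `n ≥ s₀` some power
  `Q ^ E` equals `1 + (N c₁ l^n) m₀` with `l ∤ m₀`  (Fermat + lifting the exponent).
* `exists_pow_congr` : if `l ∣ c`, `l ∤ m₀ D` then every `D - j c` is `≡ (1 + c m₀)^i D` modulo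
  `l c` for a suitable `i`.
Mathlib only.
-/
import Mathlib

set_option autoImplicit false

namespace Fermat.Agent.S41.H68

theorem exists_exponent (N Q l : ℕ) (hQ1 : 1 < Q) (hQN : Q ≡ 1 [MOD N])
    (hl : l.Prime) (hl2 : l ≠ 2) (hlN : ¬ l ∣ N) (hlQ : ¬ l ∣ Q) :
    ∃ s₀ : ℕ, 0 < s₀ ∧ ∀ c₁ : ℕ, c₁.Prime → ¬ c₁ ∣ N → ¬ c₁ ∣ Q → c₁ ≠ l → ¬ (l ∣ c₁ - 1) →
      ∀ n : ℕ, s₀ ≤ n → ∃ E m₀ : ℕ, Q ^ E = 1 + (N * c₁ * l ^ n) * m₀ ∧ ¬ l ∣ m₀ := by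
  have : Fact l.Prime := ⟨hl⟩
  have hlodd : Odd l := hl.odd_of_ne_two hl2
  have hl1 : 1 ≤ l - 1 := by have := hl.two_le; omega
  have hx1 : 1 < Q ^ (l - 1) := Nat.one_lt_pow (by omega) hQ1
  have hcop : Nat.Coprime Q l := Nat.coprime_comm.mp ((Nat.Prime.coprime_iff_not_dvd hl).mpr hlQ)
  have hlx : l ∣ Q ^ (l - 1) - 1 := by
    have h := Nat.ModEq.pow_totient hcop
    rw [Nat.totient_prime hl] at h
    exact (Nat.modEq_iff_dvd' hx1.le).mp h.symm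
  have hlx' : ¬ l ∣ Q ^ (l - 1) := fun h => hlQ (hl.dvd_of_dvd_pow h)
  have hs₀pos : 0 < padicValNat l (Q ^ (l - 1) - 1) :=
    one_le_padicValNat_of_dvd (by omega) hlx
  refine ⟨padicValNat l (Q ^ (l - 1) - 1), hs₀pos, ?_⟩
  intro c₁ hc₁ hc₁N hc₁Q hc₁l hc₁1 n hn
  have hc₁2 := hc₁.two_le
  have hm0 : l ^ (n - padicValNat l (Q ^ (l - 1) - 1)) * (c₁ - 1) ≠ 0 :=
    Nat.mul_ne_zero (pow_ne_zero _ hl.ne_zero) (by omega)
  -- the valuation of `Q^E - 1`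
  have hval : padicValNat l ((Q ^ (l - 1)) ^ (l ^ (n - padicValNat l (Q ^ (l - 1) - 1)) * (c₁ - 1))
      - 1) = n := by
    have h := padicValNat.pow_sub_pow hlodd hx1 hlx hlx' hm0
    rw [one_pow] at h
    rw [h, padicValNat.mul (pow_ne_zero _ hl.ne_zero) (by omega), padicValNat.prime_pow,
      padicValNat.eq_zero_of_not_dvd hc₁1]
    omega
  set E : ℕ := (l - 1) * (l ^ (n - padicValNat l (Q ^ (l - 1) - 1)) * (c₁ - 1)) with hE
  have hQE : (Q ^ (l - 1)) ^ (l ^ (n - padicValNat l (Q ^ (l - 1) - 1)) * (c₁ - 1)) = Q ^ E := by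
    rw [hE]
    exact (pow_mul Q (l - 1) _).symm
  rw [hQE] at hval
  have hQEpos : 1 ≤ Q ^ E := Nat.one_le_pow _ _ (by omega)
  have hQE1 : 1 < Q ^ E := by
    rw [← hQE]
    exact Nat.one_lt_pow hm0 hx1
  have hXne : Q ^ E - 1 ≠ 0 := by omega
  -- divisibilities
  have hN : N ∣ Q ^ E - 1 := by
    have h := hQN.pow E
    rw [one_pow] at h
    exact (Nat.modEq_iff_dvd' hQEpos).mp h.symm
  have hc : c₁ ∣ Q ^ E - 1 := by
    have hcop' : Nat.Coprime Q c₁ :=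
      Nat.coprime_comm.mp ((Nat.Prime.coprime_iff_not_dvd hc₁).mpr hc₁Q)
    have h := Nat.ModEq.pow_totient hcop'
    rw [Nat.totient_prime hc₁] at h
    have h2 := h.pow ((l - 1) * l ^ (n - padicValNat l (Q ^ (l - 1) - 1)))
    rw [one_pow, ← pow_mul] at h2
    have hE' : (c₁ - 1) * ((l - 1) * l ^ (n - padicValNat l (Q ^ (l - 1) - 1))) = E := by
      rw [hE]; ring
    rw [hE'] at h2
    exact (Nat.modEq_iff_dvd' hQEpos).mp h2.symm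
  have hln : l ^ n ∣ Q ^ E - 1 := by
    have h := pow_padicValNat_dvd (p := l) (n := Q ^ E - 1)
    rwa [hval] at h
  have hNc : Nat.Coprime N c₁ :=
    Nat.coprime_comm.mp ((Nat.Prime.coprime_iff_not_dvd hc₁).mpr hc₁N)
  have hNl : Nat.Coprime N l := Nat.coprime_comm.mp ((Nat.Prime.coprime_iff_not_dvd hl).mpr hlN)
  have hcl : Nat.Coprime c₁ l := (Nat.coprime_primes hc₁ hl).mpr hc₁l
  have hNcl : Nat.Coprime (N * c₁) (l ^ n) :=
    Nat.Coprime.pow_right n (Nat.Coprime.mul_left hNl hcl)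
  have hdvd : N * c₁ * l ^ n ∣ Q ^ E - 1 :=
    Nat.Coprime.mul_dvd_of_dvd_of_dvd hNcl (Nat.Coprime.mul_dvd_of_dvd_of_dvd hNc hN hc) hln
  obtain ⟨m₀, hm₀⟩ := hdvd
  refine ⟨E, m₀, by omega, ?_⟩
  intro hlm
  obtain ⟨k, rfl⟩ := hlm
  have h1 : l ^ (n + 1) ∣ Q ^ E - 1 := by
    rw [hm₀]
    exact ⟨N * c₁ * k, by ring⟩
  have h2 := (padicValNat_dvd_iff_le hXne).mp h1
  omega

theorem exists_pow_congr (l : ℕ) (hl : l.Prime) (c m₀ D j : ℤ) (hlc : (l : ℤ) ∣ c)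
    (hm₀ : ¬ (l : ℤ) ∣ m₀) (hD : ¬ (l : ℤ) ∣ D) :
    ∃ (i : ℕ) (t : ℤ), D - j * c = (1 + c * m₀) ^ i * D + t * (l * c) := by
  obtain ⟨c', rfl⟩ := hlc
  have hpow : ∀ i : ℕ, ∃ u : ℤ,
      (1 + (l : ℤ) * c' * m₀) ^ i = 1 + i * ((l : ℤ) * c' * m₀) + u * (l * (l * c')) := by
    intro i
    induction i with
    | zero => exact ⟨0, by simp⟩
    | succ i ih =>
      obtain ⟨u, hu⟩ := ih
      refine ⟨i * c' * m₀ ^ 2 + u * (1 + l * c' * m₀), ?_⟩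
      rw [pow_succ, hu]
      push_cast
      ring
  have hlp : Prime (l : ℤ) := Nat.prime_iff_prime_int.mp hl
  have hndvd : ¬ (l : ℤ) ∣ m₀ * D := fun h => (hlp.dvd_or_dvd h).elim hm₀ hD
  obtain ⟨a, b, hab⟩ := (Prime.coprime_iff_not_dvd hlp).mpr hndvd
  -- `i ≡ -j b mod l`
  have hlpos : (0 : ℤ) < l := by exact_mod_cast hl.pos
  set r : ℤ := (-j * b) % l with hr
  have hr0 : 0 ≤ r := Int.emod_nonneg _ hlpos.ne'
  obtain ⟨u, hu⟩ := hpow r.toNat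
  have hcast : ((r.toNat : ℕ) : ℤ) = r := Int.toNat_of_nonneg hr0
  have hdiv : -j * b = l * (-j * b / l) + r := by
    rw [hr]
    exact (Int.mul_ediv_add_emod _ _).symm
  refine ⟨r.toNat, -((j * a - (-j * b / l) * (m₀ * D)) * 1 + u * D), ?_⟩
  rw [hu, hcast]
  have hr' : r = -j * b - l * (-j * b / l) := by linarith
  rw [hr']
  linear_combination (j * (l : ℤ) * c') * hab

end Fermat.Agent.S41.H68
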