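/-
S41 (helper68): prime selection tools for report #1264, step (5).

* `exists_prime_gt_dvd_sub` : Dirichlet in the form "a prime `p > B` with `q ∣ p - a`".
* `exists_crt`              : Chinese remainder theorem for two coprime integer moduli.
* `isCoprime_of_dvd_sub`    : coprimality is constant on residue classes.
* `dvd_pow_half_sub_one`    : if `P ≡ -1 mod 4` and `P ≡ -1 mod l` (`l` an odd prime) then
                              `l ^ (P / 2) ≡ 1 mod P`  (quadratic reciprocity + Euler's criterion).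
Mathlib only.
-/
import Mathlib

set_option autoImplicit false

namespace Fermat.Agent.S41.H68

theorem exists_prime_gt_dvd_sub (q a : ℤ) (hq : q ≠ 0) (h : IsCoprime a q) (B : ℕ) :
    ∃ p : ℕ, B < p ∧ p.Prime ∧ q ∣ (p : ℤ) - a := by
  have hq' : q.natAbs ≠ 0 := Int.natAbs_ne_zero.mpr hq
  have h' : IsCoprime a (q.natAbs : ℤ) :=
    IsCoprime.of_isCoprime_of_dvd_right h (Int.natAbs_dvd.mpr dvd_rfl)
  obtain ⟨p, hpB, hp, hpa⟩ := Nat.forall_exists_prime_gt_and_zmodEq B hq' h'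
  exact ⟨p, hpB, hp, Int.natAbs_dvd.mp hpa.symm.dvd⟩

theorem exists_crt (m n a b : ℤ) (h : IsCoprime m n) : ∃ r : ℤ, m ∣ r - a ∧ n ∣ r - b := by
  obtain ⟨u, v, huv⟩ := h
  exact ⟨a * (v * n) + b * (u * m), ⟨u * (b - a), by linear_combination a * huv⟩,
    ⟨v * (a - b), by linear_combination b * huv⟩⟩

theorem isCoprime_of_dvd_sub {m r a : ℤ} (h : m ∣ r - a) (ha : IsCoprime a m) :
    IsCoprime r m := by
  obtain ⟨k, hk⟩ := h
  have hr : r = a + m * k := by linarith
  rw [hr]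
  exact ha.add_mul_left_left k

theorem dvd_pow_half_sub_one (P l : ℕ) (hP : P.Prime) (hl : l.Prime) (hl2 : l ≠ 2)
    (hP4 : 4 ∣ P + 1) (hPl : l ∣ P + 1) : (P : ℤ) ∣ (l : ℤ) ^ (P / 2) - 1 := by
  have : Fact P.Prime := ⟨hP⟩
  have : Fact l.Prime := ⟨hl⟩
  have hP3 : P % 4 = 3 := by omega
  have hP2 : P ≠ 2 := by omega
  have hPne : P ≠ l := by
    rintro rfl
    have h1 : P ∣ 1 := (Nat.dvd_add_right dvd_rfl).mp hPl
    exact hP.one_lt.ne' (Nat.dvd_one.mp h1)
  have hPm1 : (P : ZMod l) = -1 := by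
    have h0 : ((P + 1 : ℕ) : ZMod l) = 0 := (ZMod.natCast_eq_zero_iff _ _).mpr hPl
    push_cast at h0
    exact eq_neg_of_add_eq_zero_left h0
  have hlodd : l % 2 = 1 := hl.eq_two_or_odd.resolve_left hl2
  have hsq : IsSquare (l : ZMod P) := by
    have h4 : l % 4 = 1 ∨ l % 4 = 3 := by omega
    rcases h4 with h1 | h3
    · refine (ZMod.exists_sq_eq_prime_iff_of_mod_four_eq_one (p := l) (q := P) h1 hP2).mp ?_
      rw [hPm1]
      exact ZMod.exists_sq_eq_neg_one_iff.mpr (by omega)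
    · refine (ZMod.exists_sq_eq_prime_iff_of_mod_four_eq_three (p := P) (q := l) hP3 h3 hPne).mpr ?_
      rw [hPm1]
      intro hneg
      exact (ZMod.exists_sq_eq_neg_one_iff.mp hneg) h3
  have hl0 : (l : ZMod P) ≠ 0 := by
    intro h0
    have h1 : P ∣ l := (ZMod.natCast_eq_zero_iff _ _).mp h0
    exact hPne ((Nat.prime_dvd_prime_iff_eq hP hl).mp h1)
  have hpow : (l : ZMod P) ^ (P / 2) = 1 := (ZMod.euler_criterion P hl0).mp hsq
  rw [← ZMod.intCast_zmod_eq_zero_iff_dvd]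
  push_cast
  rw [hpow, sub_self]

end Fermat.Agent.S41.H68
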