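/-
S41 (helper68): the recurrence/periodicity lemma of report #1264, step (4).

A `π`-periodic sequence satisfying `θ s_{n+1} = l s_{n+2} + s_n` from some point on vanishes
identically, as soon as `θ ≠ l + 1`, `l ≠ 0` and `π` is prime to a number `ω` depending only on
`(l, θ)`.  Mathlib only.
-/
import Mathlib

set_option autoImplicit false

namespace Fermat.Agent.S41.H68

variable {F : Type*} [Field F]

/-- The shift of the recurrence `θ s_{n+1} = l s_{n+2} + s_n` on pairs `(s_{n+1}, s_n)`. -/
def shiftMap (l θ : F) : (F × F) →ₗ[F] (F × F) where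
  toFun v := (l⁻¹ * (θ * v.1 - v.2), v.1)
  map_add' v w := by
    ext
    · simp only [Prod.fst_add, Prod.snd_add]; ring
    · simp
  map_smul' a v := by
    ext
    · simp only [Prod.smul_fst, Prod.smul_snd, smul_eq_mul, RingHom.id_apply]; ring
    · simp

lemma shiftMap_apply (l θ : F) (v : F × F) :
    shiftMap l θ v = (l⁻¹ * (θ * v.1 - v.2), v.1) := rfl

/-- `1` is not an eigenvalue of the shift when `θ ≠ l + 1`. -/
lemma eq_zero_of_shiftMap_eq {l θ : F} (hl : l ≠ 0) (hθ : θ ≠ l + 1) {v : F × F}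
    (h : shiftMap l θ v = v) : v = 0 := by
  rw [shiftMap_apply] at h
  have h1 : l⁻¹ * (θ * v.1 - v.2) = v.1 := congrArg Prod.fst h
  have h2 : v.1 = v.2 := congrArg Prod.snd h
  have h3 : (θ - (l + 1)) * v.1 = 0 := by
    have : θ * v.1 - v.2 = l * v.1 := by
      have h1' : l * (l⁻¹ * (θ * v.1 - v.2)) = l * v.1 := by rw [h1]
      rw [← mul_assoc, mul_inv_cancel₀ hl, one_mul] at h1'
      exact h1'
    rw [← h2] at this
    linear_combination this
  have h4 : v.1 = 0 := by
    rcases mul_eq_zero.mp h3 with h5 | h5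
    · exact absurd (sub_eq_zero.mp h5) hθ
    · exact h5
  ext
  · exact h4
  · rw [← h2]; exact h4

/-- The periodic vectors of a linear map form a submodule. -/
def periodicSubmodule {V : Type*} [AddCommGroup V] [Module F V] (T : V →ₗ[F] V) :
    Submodule F V where
  carrier := {v | ∃ k : ℕ, 0 < k ∧ (T ^ k) v = v}
  zero_mem' := ⟨1, one_pos, by simp⟩
  add_mem' := by
    rintro v w ⟨k, hk, hv⟩ ⟨m, hm, hw⟩
    refine ⟨k * m, Nat.mul_pos hk hm, ?_⟩
    have e1 : (T ^ (k * m)) v = v := by
      rw [pow_mul]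
      clear hw hm
      induction m with
      | zero => simp
      | succ m ih => rw [pow_succ, Module.End.mul_apply, hv, ih]
    have e2 : (T ^ (k * m)) w = w := by
      rw [mul_comm, pow_mul]
      clear hv hk e1
      induction k with
      | zero => simp
      | succ k ih => rw [pow_succ, Module.End.mul_apply, hw, ih]
    rw [map_add, e1, e2]
  smul_mem' := by
    rintro a v ⟨k, hk, hv⟩
    exact ⟨k, hk, by rw [map_smul, hv]⟩

lemma mem_periodicSubmodule {V : Type*} [AddCommGroup V] [Module F V] (T : V →ₗ[F] V) (v : V) :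
    v ∈ periodicSubmodule T ↔ ∃ k : ℕ, 0 < k ∧ (T ^ k) v = v := Iff.rfl

lemma pow_mul_apply_of_fixed {V : Type*} [AddCommGroup V] [Module F V] (T : V →ₗ[F] V) {k : ℕ}
    {v : V} (hv : (T ^ k) v = v) (m : ℕ) : (T ^ (k * m)) v = v := by
  rw [pow_mul]
  induction m with
  | zero => simp
  | succ m ih => rw [pow_succ, Module.End.mul_apply, hv, ih]

/-- On a finite-dimensional space there is a common period for all periodic vectors. -/
lemma exists_common_period {V : Type*} [AddCommGroup V] [Module F V] [FiniteDimensional F V]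
    (T : V →ₗ[F] V) : ∃ ω : ℕ, 0 < ω ∧ ∀ v ∈ periodicSubmodule T, (T ^ ω) v = v := by
  classical
  obtain ⟨S, hS⟩ := (IsNoetherian.noetherian (periodicSubmodule T) : (periodicSubmodule T).FG)
  have hSmem : ∀ v ∈ S, v ∈ periodicSubmodule T := fun v hv =>
    hS ▸ Submodule.subset_span (Finset.mem_coe.mpr hv)
  have key : ∀ S' : Finset V, (∀ v ∈ S', v ∈ periodicSubmodule T) →
      ∃ ω : ℕ, 0 < ω ∧ ∀ v ∈ S', (T ^ ω) v = v := by
    intro S'
    induction S' using Finset.induction_on with
    | empty => intro _; exact ⟨1, one_pos, by simp⟩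
    | insert a S' _ ih =>
      intro h
      obtain ⟨ω, hω, hωS⟩ := ih fun v hv => h v (Finset.mem_insert_of_mem hv)
      obtain ⟨k, hk, hka⟩ := h a (Finset.mem_insert_self a S')
      refine ⟨k * ω, Nat.mul_pos hk hω, ?_⟩
      intro v hv
      rcases Finset.mem_insert.mp hv with rfl | hv
      · exact pow_mul_apply_of_fixed T hka ω
      · rw [mul_comm]
        exact pow_mul_apply_of_fixed T (hωS v hv) k
  obtain ⟨ω, hω, hωS⟩ := key S hSmem
  refine ⟨ω, hω, ?_⟩
  intro v hv
  rw [← hS] at hv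
  induction hv using Submodule.span_induction with
  | mem x hx => exact hωS x (Finset.mem_coe.mp hx)
  | zero => simp
  | add x y _ _ hx hy => rw [map_add, hx, hy]
  | smul a x _ hx => rw [map_smul, hx]

/-- **Step (4) of #1264, vector form.** -/
theorem exists_omega (l θ : F) (hl : l ≠ 0) (hθ : θ ≠ l + 1) :
    ∃ ω : ℕ, 0 < ω ∧ ∀ π : ℕ, 0 < π → Nat.Coprime π ω → ∀ v : F × F,
      (shiftMap l θ ^ π) v = v → v = 0 := by
  obtain ⟨ω, hω, hper⟩ := exists_common_period (shiftMap l θ)
  refine ⟨ω, hω, ?_⟩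
  intro π hπ hcop v hv
  have hvω : (shiftMap l θ ^ ω) v = v := hper v ⟨π, hπ, hv⟩
  have h1 : Function.IsPeriodicPt (shiftMap l θ) π v := by
    rw [Function.IsPeriodicPt, Function.IsFixedPt, ← Module.End.pow_apply]
    exact hv
  have h2 : Function.IsPeriodicPt (shiftMap l θ) ω v := by
    rw [Function.IsPeriodicPt, Function.IsFixedPt, ← Module.End.pow_apply]
    exact hvω
  have h3 := h1.gcd h2
  rw [Nat.Coprime] at hcop
  rw [hcop, Function.IsPeriodicPt, Function.iterate_one, Function.IsFixedPt] at h3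
  exact eq_zero_of_shiftMap_eq hl hθ h3

/-- **Step (4) of #1264, sequence form.**  There is `ω ≥ 1`, depending only on `(l, θ)`, such
that every `π`-periodic sequence (`π ≥ 1` prime to `ω`) satisfying
`θ s_{n+1} = l s_{n+2} + s_n` for `n ≥ n₀` vanishes identically. -/
theorem exists_omega_seq (l θ : F) (hl : l ≠ 0) (hθ : θ ≠ l + 1) :
    ∃ ω : ℕ, 0 < ω ∧ ∀ π : ℕ, 0 < π → Nat.Coprime π ω → ∀ (s : ℕ → F) (n₀ : ℕ),
      (∀ m, s (m + π) = s m) →
      (∀ n, n₀ ≤ n → θ * s (n + 1) = l * s (n + 2) + s n) → ∀ m, s m = 0 := by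
  obtain ⟨ω, hω, hvec⟩ := exists_omega l θ hl hθ
  refine ⟨ω, hω, ?_⟩
  intro π hπ hcop s n₀ hper hrec
  -- the shift moves `(s (n+1), s n)` to `(s (n+2), s (n+1))` for `n ≥ n₀`
  have hstep : ∀ n, n₀ ≤ n → shiftMap l θ (s (n + 1), s n) = (s (n + 2), s (n + 1)) := by
    intro n hn
    rw [shiftMap_apply]
    ext
    · simp only
      rw [hrec n hn]
      field_simp
      ring
    · rfl
  have hiter : ∀ k n, n₀ ≤ n → (shiftMap l θ ^ k) (s (n + 1), s n) =
      (s (n + k + 1), s (n + k)) := by
    intro k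
    induction k with
    | zero => intro n _; simp
    | succ k ih =>
      intro n hn
      rw [pow_succ', Module.End.mul_apply, ih n hn, hstep (n + k) (by omega)]
      rfl
  have hzero : ∀ n, n₀ ≤ n → s n = 0 := by
    intro n hn
    have h1 := hiter π n hn
    rw [show n + π + 1 = (n + 1) + π by ring, hper (n + 1), hper n] at h1
    have h2 := hvec π hπ hcop _ h1
    exact congrArg Prod.snd h2
  intro m
  have hmul : ∀ k, s (m + k * π) = s m := by
    intro k
    induction k with
    | zero => simp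
    | succ k ih => rw [Nat.succ_mul, ← add_assoc, hper, ih]
  rw [← hmul n₀]
  exact hzero _ (by nlinarith)

end Fermat.Agent.S41.H68
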