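/-
S41 (helper68): the group-free number-theoretic core of report #1264 (helper15), steps (3)-(5).

A function `σ` on coprime integer rows `(c, d)`, `N ∣ c`, which is invariant under
`d ↦ d + t c` (S1), `c ↦ c + N s d` (S2), `d ↦ Q d` (SQ) and satisfies the Hecke relation
`θ σ(l c, d) = ∑_{j<l} σ(l² c, d - j l c) + σ(c, d)` for `d ≡ 1 mod l` with `θ ≠ l + 1`,
vanishes on all rows with `d ≡ 1 mod N`.
Mathlib only (Dirichlet, quadratic reciprocity, lifting the exponent).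
-/
import Fermat.Agent.S41.H68.Recurrence
import Fermat.Agent.S41.H68.Collapse
import Fermat.Agent.S41.H68.Primes

set_option autoImplicit false

namespace Fermat.Agent.S41.H68

/-- Iterating (SQ). -/
lemma sq_iter {F : Type*} (N Q : ℕ) (σ : ℤ → ℤ → F)
    (SQ : ∀ c d : ℤ, (N : ℤ) ∣ c → IsCoprime c d → IsCoprime c (Q : ℤ) → σ c (Q * d) = σ c d)
    (c d : ℤ) (hc : (N : ℤ) ∣ c) (hcd : IsCoprime c d) (hcQ : IsCoprime c (Q : ℤ)) (k : ℕ) :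
    σ c ((Q : ℤ) ^ k * d) = σ c d := by
  induction k with
  | zero => simp
  | succ k ih =>
    rw [pow_succ', mul_assoc, SQ c _ hc (IsCoprime.mul_right hcQ.pow_right hcd) hcQ, ih]

/-- Natural-number divisibility of `P + 1` from the integer one. -/
lemma nat_dvd_succ_of_int {a P : ℕ} (h : (a : ℤ) ∣ (P : ℤ) + 1) : a ∣ P + 1 := by
  have h' : (a : ℤ) ∣ ((P + 1 : ℕ) : ℤ) := by push_cast; exact h
  exact Int.natCast_dvd_natCast.mp h'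

theorem ihara_core (N : ℕ) (hN : 0 < N) (Q : ℕ) (hQ1 : 1 < Q) (hQN : Q ≡ 1 [MOD N])
    (l : ℕ) (hl : l.Prime) (hl2 : l ≠ 2) (hlN : ¬ l ∣ N) (hlQ : ¬ l ∣ Q)
    {F : Type*} [Field F] (hlF : (l : F) ≠ 0) (θ : F) (hθ : θ ≠ l + 1) (σ : ℤ → ℤ → F)
    (S1 : ∀ c d t : ℤ, (N : ℤ) ∣ c → IsCoprime c d → σ c (d + t * c) = σ c d)
    (S2 : ∀ c d s : ℤ, (N : ℤ) ∣ c → IsCoprime c d → σ (c + N * s * d) d = σ c d)
    (SQ : ∀ c d : ℤ, (N : ℤ) ∣ c → IsCoprime c d → IsCoprime c (Q : ℤ) → σ c (Q * d) = σ c d)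
    (H : ∀ c d : ℤ, (N : ℤ) ∣ c → IsCoprime (l * c) d → d ≡ 1 [ZMOD l] →
      θ * σ (l * c) d = ∑ j ∈ Finset.range l, σ (l * (l * c)) (d - j * (l * c)) + σ c d) :
    ∀ c d : ℤ, (N : ℤ) ∣ c → IsCoprime c d → d ≡ 1 [ZMOD N] → σ c d = 0 := by
  obtain ⟨ω, hω, hseq⟩ := exists_omega_seq (l : F) θ hlF hθ
  obtain ⟨s₀, hs₀, hexp⟩ := exists_exponent N Q l hQ1 hQN hl hl2 hlN hlQ
  -- reduction to `d ≠ 0`
  suffices hmain : ∀ c d : ℤ, (N : ℤ) ∣ c → IsCoprime c d → d ≡ 1 [ZMOD N] → d ≠ 0 →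
      σ c d = 0 by
    intro c d hc hcd hd
    by_cases hd0 : d = 0
    · rw [← S1 c d 1 hc hcd]
      refine hmain c (d + 1 * c) hc ?_ ?_ ?_
      · have := hcd.add_mul_left_right 1
        simpa [mul_comm] using this
      · obtain ⟨k, hk⟩ := hc
        have h1 : d + 1 * c ≡ d [ZMOD N] := by
          rw [Int.modEq_iff_dvd]
          exact ⟨-k, by rw [hk]; ring⟩
        exact h1.trans hd
      · subst hd0
        have hu : IsUnit c := isCoprime_zero_right.mp hcd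
        intro h0
        rw [zero_add, one_mul] at h0
        rw [h0] at hu
        exact not_isUnit_zero hu
    · exact hmain c d hc hcd hd hd0
  intro c d hc hcd hd hd0
  obtain ⟨c', rfl⟩ := hc
  have hNd : IsCoprime (N : ℤ) d := IsCoprime.of_mul_left_left hcd
  have hc'd : IsCoprime c' d := IsCoprime.of_mul_left_right hcd
  have hNd1 : (N : ℤ) ∣ d - 1 := hd.symm.dvd
  -- the modulus `A = 4 l ω N`
  set A : ℕ := 4 * l * ω * N with hA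
  have hApos : 0 < A :=
    Nat.mul_pos (Nat.mul_pos (Nat.mul_pos (by norm_num) hl.pos) hω) hN
  have h4A : (4 : ℤ) ∣ (A : ℤ) := ⟨(l : ℤ) * ω * N, by rw [hA]; push_cast; ring⟩
  have hlA : (l : ℤ) ∣ (A : ℤ) := ⟨4 * (ω : ℤ) * N, by rw [hA]; push_cast; ring⟩
  have hωA : (ω : ℤ) ∣ (A : ℤ) := ⟨4 * (l : ℤ) * N, by rw [hA]; push_cast; ring⟩
  have hNA : (N : ℤ) ∣ (A : ℤ) := ⟨4 * (l : ℤ) * ω, by rw [hA]; push_cast; ring⟩
  -- Step A: the prime `c₀`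
  obtain ⟨c₀, hc₀B, hc₀, hc₀d⟩ := exists_prime_gt_dvd_sub d c' hd0 hc'd A
  have hc₀d' : IsCoprime (c₀ : ℤ) d := isCoprime_of_dvd_sub hc₀d hc'd
  have hNc₀d : IsCoprime ((N : ℤ) * c₀) d := IsCoprime.mul_left hNd hc₀d'
  have e1 : σ ((N : ℤ) * c') d = σ ((N : ℤ) * c₀) d := by
    obtain ⟨s, hs⟩ := hc₀d
    rw [← S2 ((N : ℤ) * c') d s ⟨c', rfl⟩ hcd]
    congr 1
    linear_combination (-(N : ℤ)) * hs
  have hAc₀ : IsCoprime (A : ℤ) (c₀ : ℤ) := by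
    rw [Nat.isCoprime_iff_coprime]
    exact Nat.Coprime.symm
      ((Nat.Prime.coprime_iff_not_dvd hc₀).mpr (Nat.not_dvd_of_pos_of_lt hApos hc₀B))
  have hNc₀ : IsCoprime (N : ℤ) (c₀ : ℤ) := IsCoprime.of_isCoprime_of_dvd_left hAc₀ hNA
  have hAc₀ne : (A : ℤ) * c₀ ≠ 0 := by
    have : (0 : ℤ) < c₀ := by exact_mod_cast hc₀.pos
    positivity
  -- Step B: the primes `P₁`, `P₂`
  obtain ⟨P₁, -, hP₁, hP₁dvd⟩ := exists_prime_gt_dvd_sub ((A : ℤ) * c₀) (-1) hAc₀ne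
    isCoprime_one_left.neg_left 0
  obtain ⟨r, hrA, hrc⟩ := exists_crt (A : ℤ) (c₀ : ℤ) (-1) (-d) hAc₀
  have hrcop : IsCoprime r ((A : ℤ) * c₀) :=
    IsCoprime.mul_right (isCoprime_of_dvd_sub hrA isCoprime_one_left.neg_left)
      (isCoprime_of_dvd_sub hrc hc₀d'.symm.neg_left)
  obtain ⟨P₂, hP₂gt, hP₂, hP₂dvd⟩ := exists_prime_gt_dvd_sub ((A : ℤ) * c₀) r hAc₀ne hrcop P₁
  have hP₁A : (A : ℤ) ∣ (P₁ : ℤ) + 1 := by
    have := (Dvd.intro _ rfl : (A : ℤ) ∣ (A : ℤ) * c₀).trans hP₁dvd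
    simpa using this
  have hP₁c : (c₀ : ℤ) ∣ (P₁ : ℤ) + 1 := by
    have := (Dvd.intro_left _ rfl : (c₀ : ℤ) ∣ (A : ℤ) * c₀).trans hP₁dvd
    simpa using this
  have hP₂A : (A : ℤ) ∣ (P₂ : ℤ) + 1 := by
    have h1 := (Dvd.intro _ rfl : (A : ℤ) ∣ (A : ℤ) * c₀).trans hP₂dvd
    have h2 := dvd_add h1 hrA
    have e : (P₂ : ℤ) - r + (r - -1) = (P₂ : ℤ) + 1 := by ring
    rwa [e] at h2
  have hP₂c : (c₀ : ℤ) ∣ (P₂ : ℤ) + d := by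
    have h1 := (Dvd.intro_left _ rfl : (c₀ : ℤ) ∣ (A : ℤ) * c₀).trans hP₂dvd
    have h2 := dvd_add h1 hrc
    have e : (P₂ : ℤ) - r + (r - -d) = (P₂ : ℤ) + d := by ring
    rwa [e] at h2
  set D : ℤ := (P₁ : ℤ) * P₂ with hD
  have hDl : (l : ℤ) ∣ D - 1 := by
    have e : D - 1 = ((P₁ : ℤ) + 1) * P₂ - ((P₂ : ℤ) + 1) := by rw [hD]; ring
    rw [e]
    exact dvd_sub (Dvd.dvd.mul_right (hlA.trans hP₁A) _) (hlA.trans hP₂A)
  have hDN : (N : ℤ) ∣ D - 1 := by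
    have e : D - 1 = ((P₁ : ℤ) + 1) * P₂ - ((P₂ : ℤ) + 1) := by rw [hD]; ring
    rw [e]
    exact dvd_sub (Dvd.dvd.mul_right (hNA.trans hP₁A) _) (hNA.trans hP₂A)
  have hDc : (c₀ : ℤ) ∣ D - d := by
    have e : D - d = ((P₁ : ℤ) + 1) * P₂ - ((P₂ : ℤ) + d) := by rw [hD]; ring
    rw [e]
    exact dvd_sub (Dvd.dvd.mul_right hP₁c _) hP₂c
  have hDNc : (N : ℤ) * c₀ ∣ D - d := by
    refine IsCoprime.mul_dvd hNc₀ ?_ hDc
    have e : D - d = (D - 1) - (d - 1) := by ring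
    rw [e]
    exact dvd_sub hDN hNd1
  have hlD : IsCoprime (l : ℤ) D := (isCoprime_of_dvd_sub hDl isCoprime_one_left).symm
  have hND : IsCoprime (N : ℤ) D := (isCoprime_of_dvd_sub hDN isCoprime_one_left).symm
  have hc₀D : IsCoprime (c₀ : ℤ) D := (isCoprime_of_dvd_sub hDc hc₀d'.symm).symm
  have hNc₀D : IsCoprime ((N : ℤ) * c₀) D := IsCoprime.mul_left hND hc₀D
  have e2 : σ ((N : ℤ) * c₀) d = σ ((N : ℤ) * c₀) D := by
    obtain ⟨t, ht⟩ := hDNc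
    rw [← S1 ((N : ℤ) * c₀) d t ⟨c₀, rfl⟩ hNc₀d]
    congr 1
    linear_combination (-1 : ℤ) * ht
  have hD1 : D ≡ 1 [ZMOD l] := by
    rw [Int.modEq_iff_dvd]
    have e : (1 : ℤ) - D = -(D - 1) := by ring
    rw [e]
    exact (dvd_neg).mpr hDl
  have hDl' : ¬ (l : ℤ) ∣ D := by
    intro h
    have h1 : (l : ℤ) ∣ 1 := by
      have := dvd_sub h hDl
      simpa using this
    have h2 : IsUnit (l : ℤ) := isUnit_of_dvd_one h1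
    exact (Nat.prime_iff_prime_int.mp hl).not_isUnit h2
  -- the period `π`
  have h4P₁ : 4 ∣ P₁ + 1 := nat_dvd_succ_of_int (h4A.trans hP₁A)
  have h4P₂ : 4 ∣ P₂ + 1 := nat_dvd_succ_of_int (h4A.trans hP₂A)
  have hlP₁ : l ∣ P₁ + 1 := nat_dvd_succ_of_int (hlA.trans hP₁A)
  have hlP₂ : l ∣ P₂ + 1 := nat_dvd_succ_of_int (hlA.trans hP₂A)
  have hAP₁ : A ∣ P₁ + 1 := nat_dvd_succ_of_int hP₁A
  have hAP₂ : A ∣ P₂ + 1 := nat_dvd_succ_of_int hP₂A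
  have hq₁ := dvd_pow_half_sub_one P₁ l hP₁ hl hl2 h4P₁ hlP₁
  have hq₂ := dvd_pow_half_sub_one P₂ l hP₂ hl hl2 h4P₂ hlP₂
  set π : ℕ := (P₁ / 2) * (P₂ / 2) with hπ
  have hπpos : 0 < π := by
    have h1 := hP₁.two_le
    have h2 := hP₂.two_le
    have h3 : 1 ≤ P₁ / 2 := by omega
    have h4 : 1 ≤ P₂ / 2 := by omega
    exact Nat.mul_pos h3 h4
  have hπD : D ∣ (l : ℤ) ^ π - 1 := by
    have hcop : IsCoprime (P₁ : ℤ) (P₂ : ℤ) := by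
      rw [Nat.isCoprime_iff_coprime]
      exact (Nat.coprime_primes hP₁ hP₂).mpr (ne_of_lt hP₂gt)
    refine IsCoprime.mul_dvd hcop ?_ ?_
    · have h := sub_dvd_pow_sub_pow ((l : ℤ) ^ (P₁ / 2)) 1 (P₂ / 2)
      rw [one_pow, ← pow_mul] at h
      exact hq₁.trans h
    · have h := sub_dvd_pow_sub_pow ((l : ℤ) ^ (P₂ / 2)) 1 (P₁ / 2)
      rw [one_pow, ← pow_mul, mul_comm] at h
      exact hq₂.trans h
  have hhalf : ∀ P : ℕ, A ∣ P + 1 → (ω : ℤ) ∣ ((P / 2 : ℕ) : ℤ) + 1 := by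
    intro P hP
    obtain ⟨k, hk⟩ := hP
    have h1 : P + 1 = 4 * (l * ω * N * k) := by rw [hk, hA]; ring
    have h2 : P / 2 + 1 = 2 * (l * ω * N * k) := by omega
    refine ⟨2 * ((l : ℤ) * N * k), ?_⟩
    have h3 : ((P / 2 : ℕ) : ℤ) + 1 = 2 * ((l : ℤ) * ω * N * k) := by
      have h := congrArg (Nat.cast : ℕ → ℤ) h2
      simpa only [Nat.cast_add, Nat.cast_one, Nat.cast_mul, Nat.cast_ofNat] using h
    linear_combination h3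
  have hπω : Nat.Coprime π ω := by
    rw [← Nat.isCoprime_iff_coprime]
    obtain ⟨k₁, hk₁⟩ := hhalf P₁ hAP₁
    obtain ⟨k₂, hk₂⟩ := hhalf P₂ hAP₂
    refine ⟨1, -(ω * k₁ * k₂ - k₁ - k₂), ?_⟩
    have e1 : ((P₁ / 2 : ℕ) : ℤ) = ω * k₁ - 1 := by linarith
    have e2 : ((P₂ / 2 : ℕ) : ℤ) = ω * k₂ - 1 := by linarith
    rw [hπ, Nat.cast_mul, e1, e2]
    ring
  -- Step C: the prime `c₁`
  have hDne : D ≠ 0 := by
    rw [hD]
    have h1 : (0 : ℤ) < P₁ := by exact_mod_cast hP₁.pos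
    have h2 : (0 : ℤ) < P₂ := by exact_mod_cast hP₂.pos
    positivity
  have hlne : (l : ℤ) ≠ 0 := by exact_mod_cast hl.ne_zero
  obtain ⟨r', hr'D, hr'l⟩ := exists_crt D (l : ℤ) (c₀ : ℤ) 2 hlD.symm
  have h2l : IsCoprime (2 : ℤ) (l : ℤ) := by
    have : Nat.Coprime 2 l := (Nat.coprime_primes Nat.prime_two hl).mpr (Ne.symm hl2)
    exact_mod_cast Nat.isCoprime_iff_coprime.mpr this
  have hr'cop : IsCoprime r' (D * l) :=
    IsCoprime.mul_right (isCoprime_of_dvd_sub hr'D hc₀D) (isCoprime_of_dvd_sub hr'l h2l)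
  obtain ⟨c₁, hc₁B, hc₁, hc₁dvd⟩ := exists_prime_gt_dvd_sub (D * l) r' (mul_ne_zero hDne hlne)
    hr'cop (N + Q + l)
  have hc₁D' : D ∣ (c₁ : ℤ) - c₀ := by
    have h1 := (Dvd.intro _ rfl : D ∣ D * l).trans hc₁dvd
    have h2 := dvd_add h1 hr'D
    have e : (c₁ : ℤ) - r' + (r' - c₀) = (c₁ : ℤ) - c₀ := by ring
    rwa [e] at h2
  have hc₁l' : (l : ℤ) ∣ (c₁ : ℤ) - 2 := by
    have h1 := (Dvd.intro_left _ rfl : (l : ℤ) ∣ D * l).trans hc₁dvd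
    have h2 := dvd_add h1 hr'l
    have e : (c₁ : ℤ) - r' + (r' - 2) = (c₁ : ℤ) - 2 := by ring
    rwa [e] at h2
  have hc₁D : IsCoprime (c₁ : ℤ) D := isCoprime_of_dvd_sub hc₁D' hc₀D
  have e3 : σ ((N : ℤ) * c₀) D = σ ((N : ℤ) * c₁) D := by
    obtain ⟨s, hs⟩ := hc₁D'
    rw [← S2 ((N : ℤ) * c₀) D s ⟨c₀, rfl⟩ hNc₀D]
    congr 1
    linear_combination (-(N : ℤ)) * hs
  have hc₁N : ¬ c₁ ∣ N := Nat.not_dvd_of_pos_of_lt hN (by omega)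
  have hc₁Q : ¬ c₁ ∣ Q := Nat.not_dvd_of_pos_of_lt (by omega) (by omega)
  have hc₁l : c₁ ≠ l := by omega
  have hc₁1 : ¬ l ∣ c₁ - 1 := by
    intro h
    have h1 : (l : ℤ) ∣ ((c₁ - 1 : ℕ) : ℤ) := Int.natCast_dvd_natCast.mpr h
    rw [Nat.cast_sub hc₁.one_lt.le] at h1
    have h2 : (l : ℤ) ∣ 1 := by
      have := dvd_sub h1 hc₁l'
      have e : ((c₁ : ℤ) - (1 : ℕ)) - ((c₁ : ℤ) - 2) = 1 := by push_cast; ring
      rwa [e] at this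
    exact (Nat.prime_iff_prime_int.mp hl).not_isUnit (isUnit_of_dvd_one h2)
  -- coprimality with `Q`
  have hNQ : IsCoprime (N : ℤ) (Q : ℤ) := by
    have h1 : (N : ℤ) ∣ (Q : ℤ) - 1 := by
      have := (Nat.modEq_iff_dvd.mp hQN.symm)
      simpa using this
    exact (isCoprime_of_dvd_sub h1 isCoprime_one_left).symm
  have hc₁Q' : IsCoprime (c₁ : ℤ) (Q : ℤ) := by
    rw [Nat.isCoprime_iff_coprime]
    exact (Nat.Prime.coprime_iff_not_dvd hc₁).mpr hc₁Q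
  have hlQ' : IsCoprime (l : ℤ) (Q : ℤ) := by
    rw [Nat.isCoprime_iff_coprime]
    exact (Nat.Prime.coprime_iff_not_dvd hl).mpr hlQ
  -- Step D: the sequence
  have hrow : ∀ m : ℕ, IsCoprime ((N : ℤ) * c₁ * (l : ℤ) ^ m) D := fun m =>
    IsCoprime.mul_left (IsCoprime.mul_left hND hc₁D) hlD.pow_left
  have hrowQ : ∀ m : ℕ, IsCoprime ((N : ℤ) * c₁ * (l : ℤ) ^ m) (Q : ℤ) := fun m =>
    IsCoprime.mul_left (IsCoprime.mul_left hNQ hc₁Q') hlQ'.pow_left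
  have hNdvd : ∀ m : ℕ, (N : ℤ) ∣ (N : ℤ) * c₁ * (l : ℤ) ^ m := fun m =>
    ⟨(c₁ : ℤ) * (l : ℤ) ^ m, by ring⟩
  have hper : ∀ m : ℕ, σ ((N : ℤ) * c₁ * (l : ℤ) ^ (m + π)) D =
      σ ((N : ℤ) * c₁ * (l : ℤ) ^ m) D := by
    intro m
    obtain ⟨k, hk⟩ := hπD
    rw [← S2 ((N : ℤ) * c₁ * (l : ℤ) ^ m) D ((c₁ : ℤ) * (l : ℤ) ^ m * k) (hNdvd m) (hrow m)]
    congr 1
    rw [pow_add]
    linear_combination ((N : ℤ) * c₁ * (l : ℤ) ^ m) * hk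
  have hrec : ∀ n : ℕ, s₀ ≤ n →
      θ * σ ((N : ℤ) * c₁ * (l : ℤ) ^ (n + 1)) D =
        (l : F) * σ ((N : ℤ) * c₁ * (l : ℤ) ^ (n + 2)) D + σ ((N : ℤ) * c₁ * (l : ℤ) ^ n) D := by
    intro n hn
    have e1' : (l : ℤ) * ((N : ℤ) * c₁ * (l : ℤ) ^ n) = (N : ℤ) * c₁ * (l : ℤ) ^ (n + 1) := by ring
    have e2' : (l : ℤ) * ((N : ℤ) * c₁ * (l : ℤ) ^ (n + 1)) = (N : ℤ) * c₁ * (l : ℤ) ^ (n + 2) := by
      ring
    have hH := H ((N : ℤ) * c₁ * (l : ℤ) ^ n) D (hNdvd n) (by rw [e1']; exact hrow (n + 1)) hD1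
    rw [e1', e2'] at hH
    rw [hH]
    congr 1
    -- every summand equals `σ (N c₁ l^(n+2)) D`
    obtain ⟨E, m₀, hE, hm₀⟩ := hexp c₁ hc₁ hc₁N hc₁Q hc₁l hc₁1 (n + 1) (by omega)
    have hE' : (Q : ℤ) ^ E = 1 + ((N : ℤ) * c₁ * (l : ℤ) ^ (n + 1)) * m₀ := by exact_mod_cast hE
    have hm₀' : ¬ (l : ℤ) ∣ (m₀ : ℤ) := fun h => hm₀ (Int.natCast_dvd_natCast.mp h)
    have hlC : (l : ℤ) ∣ (N : ℤ) * c₁ * (l : ℤ) ^ (n + 1) := ⟨(N : ℤ) * c₁ * (l : ℤ) ^ n, by ring⟩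
    have hterm : ∀ j ∈ Finset.range l,
        σ ((N : ℤ) * c₁ * (l : ℤ) ^ (n + 2)) (D - (j : ℤ) * ((N : ℤ) * c₁ * (l : ℤ) ^ (n + 1))) =
          σ ((N : ℤ) * c₁ * (l : ℤ) ^ (n + 2)) D := by
      intro j _
      obtain ⟨i, t, hit⟩ := exists_pow_congr l hl ((N : ℤ) * c₁ * (l : ℤ) ^ (n + 1)) m₀ D j hlC
        hm₀' hDl'
      rw [← hE', e2', ← pow_mul] at hit
      rw [hit, S1 _ _ t (hNdvd (n + 2))
        (IsCoprime.mul_right (hrowQ (n + 2)).pow_right (hrow (n + 2)))]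
      exact sq_iter N Q σ SQ _ D (hNdvd (n + 2)) (hrow (n + 2)) (hrowQ (n + 2)) (E * i)
    rw [Finset.sum_congr rfl hterm, Finset.sum_const, Finset.card_range, nsmul_eq_mul]
  have hzero := hseq π hπpos hπω (fun m => σ ((N : ℤ) * c₁ * (l : ℤ) ^ m) D) s₀ hper hrec 0
  simp only [pow_zero, mul_one] at hzero
  rw [e1, e2, e3, hzero]

end Fermat.Agent.S41.H68
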